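import Fermat.Agent.S35.G.SpecLevel
import Fermat.Agent.A2.Mod.H549.L14

/-!
# S35, piece (G') — leaves STABLE, COORD, FROB-RES (helper126)

Statements of `Fermat/Agent/S35/G/SpecLevel.lean`, verbatim:

* `stable   : StableStatement A E`      — an element of the decomposition group of `A` stabilising
  `E` commutes with the Fricke involution and preserves the Gauss valuation ring `V∞`
  (`A2.Mod.H549.fricke_comm`, `A2.Mod.H549.isGaussInt_coeffMap`);
* `coord    : CoordStatement E M q`     — `x = j · j_q` is fixed by the action on the coefficients;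
* `frobRes  : FrobResStatement A E q`   — `s²` induces on `R_E = A ∩ E` an automorphism which is
  `r ↦ r ^ (q ^ 2)` modulo the maximal ideal.
-/

set_option autoImplicit false
set_option linter.unusedSectionVars false
set_option synthInstance.maxHeartbeats 400000
set_option maxHeartbeats 1600000

noncomputable section

namespace Fermat.Agent.S35.G.H126

open ModularCurve HahnSeries Fermat.Agent.A2

/-! ## STABLE -/

/-- The restriction `resE` is the restriction. -/
theorem coe_resE (E : IntermediateField ℚ A2.Mod.Qb) (s : A2.Mod.Qb ≃ₐ[ℚ] A2.Mod.Qb)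
    (hs : StableUnder E s) (e : E) :
    ((A2.Mod.resE E s hs e : E) : A2.Mod.Qb) = s (e : A2.Mod.Qb) := rfl

/-- An element of the decomposition group stabilising `E` preserves `R_E = A ∩ E`. -/
theorem resE_mem_RE (A : ValuationSubring A2.Mod.Qb) (E : IntermediateField ℚ A2.Mod.Qb)
    (s : A2.Mod.Qb ≃ₐ[ℚ] A2.Mod.Qb) (hs : StableUnder E s)
    (hsD : s ∈ A.decompositionSubgroup ℚ) (a : E) (ha : a ∈ A2.Mod.RE A E) :
    A2.Mod.resE E s hs a ∈ A2.Mod.RE A E := by
  rw [ValuationSubring.mem_comap] at ha ⊢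
  exact H708.apply_mem_of_mem_decomposition A hsD ha

/-- ... and reflects it. -/
theorem mem_RE_of_resE_mem (A : ValuationSubring A2.Mod.Qb) (E : IntermediateField ℚ A2.Mod.Qb)
    (s : A2.Mod.Qb ≃ₐ[ℚ] A2.Mod.Qb) (hs : StableUnder E s)
    (hsD : s ∈ A.decompositionSubgroup ℚ) (a : E) (ha : A2.Mod.resE E s hs a ∈ A2.Mod.RE A E) :
    a ∈ A2.Mod.RE A E := by
  rw [ValuationSubring.mem_comap] at ha ⊢
  exact H708.mem_of_apply_mem_of_mem_decomposition A hsD ha

/-- **STABLE.** -/
theorem stable (A : ValuationSubring A2.Mod.Qb) (E : IntermediateField ℚ A2.Mod.Qb) :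
    StableStatement A E := by
  intro N hN _hdvr V W hV hW s hs hsD
  constructor
  · -- `σ W = W σ`
    refine A2.Mod.H549.fricke_comm N (W : _ →+* _) (fun c => W.commutes c)
      (A2.Mod.resE E s hs) ?_
    intro d hne hd
    obtain ⟨d', hd'⟩ := hd
    have hd'0 : d' ≠ 0 := by
      rintro rfl
      exact hN (by rw [hd', mul_zero])
    have : NeZero d' := ⟨hd'0⟩
    have hdN : d ∣ N := ⟨d', hd'⟩
    have hd'N : d' ∣ N := ⟨d, by rw [hd', mul_comm]⟩
    show W (A2.Mod.jE E N d hdN) ∈ A2.Mod.H549.fixSub N (A2.Mod.resE E s hs)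
    rw [hW.1 d d' hdN hd'N hd'.symm, A2.Mod.H549.mem_fixSub]
    exact Subtype.ext (coeffMap_coeffEmb (A2.Mod.resE E s hs) _)
  · -- `σ V∞ ⊆ V∞`
    intro f hf
    exact (hV _).mpr
      (A2.Mod.H549.isGaussInt_coeffMap (F₀ := modularFunctionFieldFull N) (A2.Mod.resE E s hs)
        (resE_mem_RE A E s hs hsD) ((hV f).mp hf))

/-! ## COORD -/

/-- the generators `j_d` are fixed by the action on the coefficients -/
theorem actE_jE (E : IntermediateField ℚ A2.Mod.Qb) (N : ℕ) (t : E ≃ₐ[ℚ] E) (d : ℕ) [NeZero d]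
    (hd : d ∣ N) : actE E N t (A2.Mod.jE E N d hd) = A2.Mod.jE E N d hd :=
  Subtype.ext (coeffMap_coeffEmb t _)

/-- **COORD.** -/
theorem coord (E : IntermediateField ℚ A2.Mod.Qb) (M q : ℕ) [NeZero M] [NeZero q] :
    CoordStatement E M q := by
  intro t
  rw [A2.Mod.xE, map_mul, actE_jE, actE_jE]

/-! ## FROB-RES -/

/-- A Frobenius element is the `q`-th power map on the residue field (elementwise form). -/
theorem frob_sub_pow_mem_nonunits (A : ValuationSubring A2.Mod.Qb) {q : ℕ}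
    {s : A2.Mod.Qb ≃ₐ[ℚ] A2.Mod.Qb} (hF : A.IsFrobeniusAt s q) {z : A2.Mod.Qb} (hz : z ∈ A) :
    s z - z ^ q ∈ A.nonunits := by
  obtain ⟨hσD, hF⟩ := hF
  have h2 := hF (IsLocalRing.residue A ⟨z, hz⟩)
  rw [← IsLocalRing.ResidueField.residue_smul, ← map_pow] at h2
  have h3 : ((⟨s, hσD⟩ : A.decompositionSubgroup ℚ) • (⟨z, hz⟩ : A)) - (⟨z, hz⟩ : A) ^ q
      ∈ IsLocalRing.maximalIdeal A := by
    rw [← Ideal.Quotient.eq]
    exact h2
  rw [← ValuationSubring.coe_mem_nonunits_iff] at h3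
  exact h3

/-- `s² z ≡ z ^ (q²)`. -/
theorem frob_sq_sub_pow_mem_nonunits (A : ValuationSubring A2.Mod.Qb) {q : ℕ}
    {s : A2.Mod.Qb ≃ₐ[ℚ] A2.Mod.Qb} (hF : A.IsFrobeniusAt s q) {z : A2.Mod.Qb} (hz : z ∈ A) :
    s (s z) - z ^ (q ^ 2) ∈ A.nonunits := by
  have hsz : s z ∈ A := H708.apply_mem_of_mem_decomposition A hF.mem_decompositionSubgroup hz
  have h1 := frob_sub_pow_mem_nonunits A hF hsz
  have h2 := frob_sub_pow_mem_nonunits A hF hz
  -- work in `A`
  have e1 : (⟨s (s z), H708.apply_mem_of_mem_decomposition A hF.mem_decompositionSubgroup hsz⟩ : A)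
      - (⟨s z, hsz⟩ : A) ^ q ∈ IsLocalRing.maximalIdeal A := by
    rw [← ValuationSubring.coe_mem_nonunits_iff]
    exact h1
  have e2 : (⟨s z, hsz⟩ : A) - (⟨z, hz⟩ : A) ^ q ∈ IsLocalRing.maximalIdeal A := by
    rw [← ValuationSubring.coe_mem_nonunits_iff]
    exact h2
  have e3 : (⟨s z, hsz⟩ : A) ^ q - ((⟨z, hz⟩ : A) ^ q) ^ q ∈ IsLocalRing.maximalIdeal A :=
    Ideal.mem_of_dvd _ (sub_dvd_pow_sub_pow _ _ q) e2
  have e4 := add_mem e1 e3
  rw [sub_add_sub_cancel, ← pow_mul, ← sq, ← ValuationSubring.coe_mem_nonunits_iff] at e4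
  exact e4

/-- **FROB-RES.** -/
theorem frobRes (A : ValuationSubring A2.Mod.Qb) (E : IntermediateField ℚ A2.Mod.Qb) (q : ℕ)
    [NeZero q] : FrobResStatement A E q := by
  intro _hA _hq s hs hF
  have hsD : s ∈ A.decompositionSubgroup ℚ := hF.mem_decompositionSubgroup
  -- the ring homomorphism induced by `s²` on `R_E`
  let φ : A2.Mod.RE A E →+* A2.Mod.RE A E :=
    { toFun := fun r => ⟨(A2.Mod.resE E s hs * A2.Mod.resE E s hs) (r : E),
        resE_mem_RE A E s hs hsD _ (resE_mem_RE A E s hs hsD _ r.2)⟩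
      map_one' := Subtype.ext (map_one _)
      map_mul' := fun a b => Subtype.ext (map_mul _ (a : E) (b : E))
      map_zero' := Subtype.ext (map_zero _)
      map_add' := fun a b => Subtype.ext (map_add _ (a : E) (b : E)) }
  have hφ : Function.Bijective φ := by
    constructor
    · intro a b hab
      have h := congrArg Subtype.val hab
      exact Subtype.ext ((A2.Mod.resE E s hs * A2.Mod.resE E s hs).injective h)
    · intro b
      obtain ⟨a, ha⟩ := (A2.Mod.resE E s hs * A2.Mod.resE E s hs).surjective (b : E)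
      have ha' : A2.Mod.resE E s hs (A2.Mod.resE E s hs a) = (b : E) := ha
      have hmem : a ∈ A2.Mod.RE A E := by
        apply mem_RE_of_resE_mem A E s hs hsD
        apply mem_RE_of_resE_mem A E s hs hsD
        rw [ha']
        exact b.2
      exact ⟨⟨a, hmem⟩, Subtype.ext ha⟩
  refine ⟨RingEquiv.ofBijective φ hφ, fun r => rfl, fun r => ?_⟩
  rw [← ValuationSubring.coe_mem_nonunits_iff, A2.Mod.H549.mem_nonunits_comap]
  have hr : ((r : E) : A2.Mod.Qb) ∈ A := r.2
  have key := frob_sq_sub_pow_mem_nonunits A hF hr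
  exact key

end Fermat.Agent.S35.G.H126

end
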